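/-
T1a (wave 2), brick G8 LEVEL (helper62): finite flat models descend from level `M` to level `N ∣ M`.

`J₀(N)[n]` is, equivariantly for `Gal(ℚ̄/ℚ)`, a subgroup of `J₀(M)[n]` as soon as the pull-back
`π^* : J₀(N) → J₀(M)` (`ES/HECKE/LevelPullback12.levelPullback`) is injective on `n`-torsion;
`Flat44.HasFlatModel.sub` then transports the finite flat model.  For `M = auxLevel ℓ N` the
injectivity on torsion is `ES/RED/PullbackInj12.levelPullback_auxLevel_eq_zero` (root descent), so
no push-forward, degree or divisibility argument is needed.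

* `hasFlatModel_tAct_of_injective` : the abstract statement (two abelian groups with Galois action,
  an equivariant additive map injective on `n`-torsion);
* `hasFlatModel_level_of_inj`      : `N ∣ M`, `π^*` injective on `n`-torsion;
* `hasFlatModel_level_of_rootDescent` : `N ∣ M` with the root descent of chapter LVL;
* `hasFlatModel_level_auxLevel`    : `M = auxLevel ℓ' N`, any torsion order `n > 0`;
* `level_down` : **the export** `(∀ k', J₀(auxLevel ℓ N)[ℓ^k'] flat) → ∀ k, J₀(N)[ℓ^k] flat`;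
* `s19FlatTarget_of_auxLevel` : `Flat44.S19FlatTarget` from the auxiliary levels only.
-/
import Mathlib
import Fermat.Agent.Flat44.S19Target
import Fermat.Agent.ES.RED.PullbackInj12

set_option autoImplicit false

noncomputable section

namespace Fermat.Agent.T1.Level62

open Fermat.Agent.Flat44 ModularCurve

/-! ### Abstract form -/

section Abstract

variable {p : ℕ} {J J' : Type} [AddCommGroup J] [AddCommGroup J']

/-- An additive map restricted to the `n`-torsion subgroups. -/
def torMap (ι : J →+ J') (n : ℤ) :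
    ↥(Submodule.torsionBy ℤ J n) →+ ↥(Submodule.torsionBy ℤ J' n) where
  toFun x := ⟨ι (x : J), by
    have hx := x.2
    rw [Submodule.mem_torsionBy_iff] at hx ⊢
    rw [← map_zsmul, hx, map_zero]⟩
  map_zero' := Subtype.ext (map_zero ι)
  map_add' x y := Subtype.ext (map_add ι (x : J) (y : J))

@[simp] theorem coe_torMap (ι : J →+ J') (n : ℤ) (x : ↥(Submodule.torsionBy ℤ J n)) :
    ((torMap ι n x : ↥(Submodule.torsionBy ℤ J' n)) : J') = ι (x : J) := rfl

theorem torMap_injective (ι : J →+ J') (n : ℤ)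
    (hinj : ∀ x : J, n • x = 0 → ι x = 0 → x = 0) :
    Function.Injective (torMap ι n) := by
  rw [injective_iff_map_eq_zero]
  intro x hx
  have hx0 : ι (x : J) = 0 := congrArg Subtype.val hx
  exact Subtype.ext (hinj (x : J) ((Submodule.mem_torsionBy_iff _ _).1 x.2) hx0)

variable [DistribMulAction GQ J] [DistribMulAction GQ J']

theorem torMap_tAct (ι : J →+ J') (hι : ∀ (σ : GQ) (x : J), ι (σ • x) = σ • ι x) (n : ℤ) (σ : GQ)
    (x : ↥(Submodule.torsionBy ℤ J n)) :
    torMap ι n (tAct J n σ x) = tAct J' n σ (torMap ι n x) :=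
  Subtype.ext (hι σ (x : J))

/-- **Abstract level lowering, injective form.**  If `ι : J → J'` is additive, Galois-equivariant
and injective on `n`-torsion, a finite flat model of `J'[n]` gives one of `J[n]`. -/
theorem hasFlatModel_tAct_of_injective (n : ℤ) (ι : J →+ J')
    (hι : ∀ (σ : GQ) (x : J), ι (σ • x) = σ • ι x)
    (hinj : ∀ x : J, n • x = 0 → ι x = 0 → x = 0)
    (h : HasFlatModel p ↥(Submodule.torsionBy ℤ J' n) (tAct J' n)) :
    HasFlatModel p ↥(Submodule.torsionBy ℤ J n) (tAct J n) := by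
  classical
  let f : ↥(Submodule.torsionBy ℤ J n) →+ ↥(Submodule.torsionBy ℤ J' n) := torMap ι n
  have hfinj : Function.Injective f := torMap_injective ι n hinj
  have hfσ : ∀ σ x, f (tAct J n σ x) = tAct J' n σ (f x) := torMap_tAct ι hι n
  -- the Galois action on the image
  let acts : GQ → f.range → f.range := fun σ s =>
    ⟨tAct J' n σ (s : ↥(Submodule.torsionBy ℤ J' n)), by
      obtain ⟨x, hx⟩ := s.2
      exact ⟨tAct J n σ x, by rw [hfσ, hx]⟩⟩
  have h1 : HasFlatModel p f.range acts := h.sub f.range acts fun _ _ => rfl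
  -- `J[n] ≃ image`
  let φ : ↥(Submodule.torsionBy ℤ J n) ≃+ f.range := AddMonoidHom.ofInjective hfinj
  refine h1.of_equiv φ.symm fun σ s => ?_
  obtain ⟨x, rfl⟩ := φ.surjective s
  rw [AddEquiv.symm_apply_apply, AddEquiv.symm_apply_eq]
  apply Subtype.ext
  show tAct J' n σ (f x) = f (tAct J n σ x)
  rw [hfσ]

end Abstract

/-! ### Modular Jacobians -/

section Level

open Fermat.Agent.ES.HECKE.LevelPullback12 Fermat.Agent.ES.RED.PullbackInj12
  Fermat.Agent.RED.Interface4 Fermat.Agent.RED.BASE.Interface12 Fermat.Agent.RED.LVL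

variable {N M : ℕ} [NeZero N] [NeZero M]

/-- **G8 LEVEL, conditional form**: `N ∣ M`, `π^*` injective on `n`-torsion. -/
theorem hasFlatModel_level_of_inj (hNM : N ∣ M) (p : ℕ) (n : ℤ)
    (hinj : ∀ x : JZero N, n • x = 0 → levelPullback hNM x = 0 → x = 0)
    (hM : HasFlatModel p ↥(Submodule.torsionBy ℤ (JZero M) n) (torsionAct M n)) :
    HasFlatModel p ↥(Submodule.torsionBy ℤ (JZero N) n) (torsionAct N n) :=
  hasFlatModel_tAct_of_injective n (levelPullback hNM) (fun σ x => levelPullback_smul hNM σ x)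
    hinj hM

/-- **G8 LEVEL** under the root descent `M → N` of chapter LVL, torsion order `n > 0`. -/
theorem hasFlatModel_level_of_rootDescent (hNM : N ∣ M)
    (hrd : LevelStepAbs2.RootDescent N M (fbar_mono hNM)) (p : ℕ) (n : ℕ) (hn : 0 < n)
    (hM : HasFlatModel p ↥(Submodule.torsionBy ℤ (JZero M) (n : ℤ)) (torsionAct M (n : ℤ))) :
    HasFlatModel p ↥(Submodule.torsionBy ℤ (JZero N) (n : ℤ)) (torsionAct N (n : ℤ)) := by
  refine hasFlatModel_level_of_inj hNM p (n : ℤ) (fun x hx hx0 => ?_) hM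
  rw [natCast_zsmul] at hx
  exact levelPullback_eq_zero_of_rootDescent hNM hrd n hn x hx hx0

/-- **G8 LEVEL** at the auxiliary level `M = auxLevel ℓ' N` (`lcm N 4`, or `lcm N 9` if `ℓ' = 2`),
torsion order `n > 0`. -/
theorem hasFlatModel_level_auxLevel (l' N : ℕ) [NeZero N] (p : ℕ) (n : ℕ) (hn : 0 < n)
    (hM : HasFlatModel p ↥(Submodule.torsionBy ℤ (JZero (auxLevel l' N)) (n : ℤ))
      (torsionAct (auxLevel l' N) (n : ℤ))) :
    HasFlatModel p ↥(Submodule.torsionBy ℤ (JZero N) (n : ℤ)) (torsionAct N (n : ℤ)) := by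
  haveI := LevelDegree17.neZero_auxLevel l' N
  refine hasFlatModel_level_of_inj (dvd_auxLevel l' N) p (n : ℤ) (fun x hx hx0 => ?_) hM
  rw [natCast_zsmul] at hx
  exact levelPullback_auxLevel_eq_zero l' N n hn x hx hx0

/-- **G8 LEVEL, the export.**  Finite flat models of all `J₀(auxLevel ℓ N)[ℓ^k']` give finite flat
models of all `J₀(N)[ℓ^k]` (only `k' = k` is used). -/
theorem level_down (N : ℕ) [NeZero N] (ℓ : ℕ) [hℓ : Fact ℓ.Prime]
    (hM : ∀ k' : ℕ, HasFlatModel ℓ
      ↥(Submodule.torsionBy ℤ (JZero (auxLevel ℓ N)) ((ℓ : ℤ) ^ k'))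
      (torsionAct (auxLevel ℓ N) ((ℓ : ℤ) ^ k'))) (k : ℕ) :
    HasFlatModel ℓ ↥(Submodule.torsionBy ℤ (JZero N) ((ℓ : ℤ) ^ k))
      (torsionAct N ((ℓ : ℤ) ^ k)) := by
  have h := hM k
  have hcast : ((ℓ : ℤ) ^ k) = ((ℓ ^ k : ℕ) : ℤ) := by push_cast; rfl
  rw [hcast] at h ⊢
  exact hasFlatModel_level_auxLevel ℓ N ℓ (ℓ ^ k) (pow_pos hℓ.out.pos k) h

/-- The intrinsic S19 target from the auxiliary levels `M` with `4 ∣ M` (`ℓ` odd) or `9 ∣ M`
(`ℓ = 2`) only. -/
theorem s19FlatTarget_of_auxLevel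
    (h : ∀ (N : ℕ) [NeZero N] (ℓ : ℕ) [Fact ℓ.Prime], ¬ ℓ ∣ N → ∀ k : ℕ,
      HasFlatModel ℓ ↥(Submodule.torsionBy ℤ (JZero (auxLevel ℓ N)) ((ℓ : ℤ) ^ k))
        (torsionAct (auxLevel ℓ N) ((ℓ : ℤ) ^ k))) : S19FlatTarget :=
  fun N _ ℓ _ hℓN k => level_down N ℓ (fun k' => h N ℓ hℓN k') k

end Level

end Fermat.Agent.T1.Level62
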